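import Mathlib
import Fermat.Agent.S36.Igusa.Defs
import Fermat.Agent.Lib.BadRed.Mod.SSCount
import Fermat.Agent.Lib.BadRed.Mod.SSCount23
import Fermat.Agent.Lib.GoodRed.ModularGenus
attribute [local instance 10000] SubalgebraClass.toAlgebra HahnSeries.powerSeriesAlgebra

/-!
# Cluster G (S36), seat GENUS: the lower bound for the number of supersingular places (helper98)

`q` prime, `q ∤ M₀`, `A | q`, `k` its residue field, `Fk₀ = modularFunctionFieldFullC k M₀`
(`q = 2`: `3 ∣ M₀`; `q = 3`: `2 ∣ M₀`).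

* `gen_genusFF_residue` : `g(F_{M₀}) = g(Fk₀)` (good reduction; cluster B);
* `gen_isSSPlace_iff`   : `IsSSPlace k M₀ q P ↔ 0 < ord_P h` for `h ∈ Fk₀` with expansion `ssFun`;
* `gen_ss_card_ge`      : `g(F_{q M₀}) + 1 ≤ 2 g(Fk₀) + #{P : IsSSPlace k M₀ q P}` (cluster T, M3).
-/

set_option autoImplicit false
set_option linter.unusedSectionVars false
set_option linter.style.haveILetI false
set_option synthInstance.maxHeartbeats 400000
set_option maxHeartbeats 1000000

noncomputable section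

open ModularCurve AlgebraicCurve

namespace Fermat.Agent.S36G

open Fermat.Agent.BadRed

local notation "Qb" => AlgebraicClosure ℚ

variable {A : ValuationSubring Qb}

/-- **good reduction**: `g(F_{M₀}) = g(Fk₀)` at a prime `q ∤ M₀` (`q = 2`: `3 ∣ M₀`; `q = 3`:
`2 ∣ M₀`). -/
theorem gen_genusFF_residue (M₀ : ℕ) [NeZero M₀] {q : ℕ} (hq : q.Prime) (hqM : ¬ q ∣ M₀)
    (h2 : q = 2 → 3 ∣ M₀) (h3 : q = 3 → 2 ∣ M₀) (hA : A.LiesOverPrime q) :
    genusFF Qb ↥(modularFunctionFieldBar M₀) =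
      genusFF (IsLocalRing.ResidueField A)
        ↥(modularFunctionFieldFullC (IsLocalRing.ResidueField A) M₀) := by
  by_cases hq2 : q = 2
  · subst hq2
    exact Fermat.Agent.BadRed.SS23.genusFF_eq_two M₀ (h2 rfl) hqM hA
  by_cases hq3 : q = 3
  · subst hq3
    exact Fermat.Agent.BadRed.SS23.genusFF_eq_three M₀ (h3 rfl) hqM hA
  exact Fermat.Agent.GoodRed.genusFF_modular_eq M₀ hq hA hqM hq2 hq3

/-- `ssFun k q` lies in `Fk₀`. -/
theorem gen_ssFun_mem (M₀ : ℕ) [NeZero M₀] {q : ℕ} (hq : q.Prime) (hA : A.LiesOverPrime q) :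
    ssFun (IsLocalRing.ResidueField A) q ∈
      modularFunctionFieldFullC (IsLocalRing.ResidueField A) M₀ := by
  by_cases hq2 : q = 2
  · subst hq2
    exact Fermat.Agent.BadRed.SS23.ssFun_two_mem_fullC hA M₀
  by_cases hq3 : q = 3
  · subst hq3
    exact Fermat.Agent.BadRed.SS23.ssFun_three_mem_fullC hA M₀
  have h5 : 5 ≤ q := by
    have h2 := hq.two_le
    by_contra hlt
    have h4 : q = 4 := by omega
    subst h4
    exact absurd hq (by decide)
  haveI : Fact q.Prime := ⟨hq⟩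
  haveI : CharP (IsLocalRing.ResidueField A) q := Fermat.Agent.FrobTrace.charP_residueField A hA
  exact ssFun_mem_fullC (IsLocalRing.ResidueField A) q h5 M₀

/-- the supersingular places are the zeros of the element with expansion `ssFun`. -/
theorem gen_isSSPlace_iff {k : Type*} [Field k] (M₀ q : ℕ)
    (h : ↥(modularFunctionFieldFullC k M₀)) (hh : (h : LaurentSeries k) = ssFun k q)
    (P : Place k ↥(modularFunctionFieldFullC k M₀)) :
    IsSSPlace k M₀ q P ↔ 0 < P.ord h := by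
  constructor
  · rintro ⟨u, hu, hP⟩
    have : u = h := Subtype.ext (hu.trans hh.symm)
    rwa [this] at hP
  · intro hP
    exact ⟨h, hh, hP⟩

theorem gen_card_isSSPlace {k : Type*} [Field k] (M₀ q : ℕ)
    (h : ↥(modularFunctionFieldFullC k M₀)) (hh : (h : LaurentSeries k) = ssFun k q) :
    Nat.card {P : Place k ↥(modularFunctionFieldFullC k M₀) // IsSSPlace k M₀ q P} =
      Nat.card {P : Place k ↥(modularFunctionFieldFullC k M₀) // 0 < P.ord h} :=
  Nat.card_congr (Equiv.subtypeEquivRight (gen_isSSPlace_iff M₀ q h hh))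

/-- the supersingular places are finite in number. -/
theorem gen_finite_isSSPlace (M₀ : ℕ) [NeZero M₀] {q : ℕ} (hq : q.Prime)
    (hA : A.LiesOverPrime q) :
    Finite {P : Place (IsLocalRing.ResidueField A)
      ↥(modularFunctionFieldFullC (IsLocalRing.ResidueField A) M₀) //
        IsSSPlace (IsLocalRing.ResidueField A) M₀ q P} := by
  haveI := finite_ssZeros (A := A) M₀ ⟨_, gen_ssFun_mem M₀ hq hA⟩
  exact Finite.of_equiv _
    (Equiv.subtypeEquivRight (gen_isSSPlace_iff M₀ q ⟨_, gen_ssFun_mem M₀ hq hA⟩ rfl)).symm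

/-- **the count of the supersingular places** (cluster T, M3):
`g(F_{q M₀}) + 1 ≤ 2 g(Fk₀) + s`. -/
theorem gen_ss_card_ge (M₀ N₁ : ℕ) [NeZero M₀] [NeZero N₁] {q : ℕ} (hq : q.Prime)
    (hqM : ¬ q ∣ M₀) (hN₁ : N₁ = q * M₀) (h2 : q = 2 → 3 ∣ M₀) (h3 : q = 3 → 2 ∣ M₀)
    (hA : A.LiesOverPrime q) :
    genusFF Qb ↥(modularFunctionFieldBar N₁) + 1 ≤
      2 * genusFF (IsLocalRing.ResidueField A)
          ↥(modularFunctionFieldFullC (IsLocalRing.ResidueField A) M₀) +
        Nat.card {P : Place (IsLocalRing.ResidueField A)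
          ↥(modularFunctionFieldFullC (IsLocalRing.ResidueField A) M₀) //
            IsSSPlace (IsLocalRing.ResidueField A) M₀ q P} := by
  rw [gen_card_isSSPlace M₀ q ⟨_, gen_ssFun_mem M₀ hq hA⟩ rfl, two_mul]
  by_cases hq2 : q = 2
  · subst hq2
    exact (Fermat.Agent.BadRed.SS23.ssCount_two M₀ N₁ (h2 rfl) hqM hN₁ hA _ rfl).le
  by_cases hq3 : q = 3
  · subst hq3
    exact (Fermat.Agent.BadRed.SS23.ssCount_three M₀ N₁ (h3 rfl) hqM hN₁ hA _ rfl).le
  have h5 : 5 ≤ q := by
    have h2 := hq.two_le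
    by_contra hlt
    have h4 : q = 4 := by omega
    subst h4
    exact absurd hq (by decide)
  exact ssCount_ge M₀ N₁ hq h5 hqM hN₁ hA _ rfl

end Fermat.Agent.S36G
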