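/-
G wave (S36), seat GENUS, Igusa instance (helper63): the lower bound for the genus of the Igusa
residue field `Fk_m = k(Z)(θ j̄)` from (IG2) the degree and (IG3) total ramification at the
supersingular places, by the relative Riemann-Hurwitz lower bound (`Lib/RR/Hurwitz/Rel*.lean`):

  `2 + 2 e_m (g₀ - 1) + (e_m - 1) |T| ≤ 2 g(Fk_m)`,   `e_m = midDeg q`, `g₀ = g(k(Z))`,

for every finite set `T` of supersingular places of `k(Z)` (`q ∉ {2, 3}`, `q ∤ M₀`).
-/
import Mathlib
import Fermat.Agent.S36.Igusa.Defs
import Fermat.Agent.Lib.RR.Hurwitz.RelRed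
import Fermat.Agent.Lib.GoodRed.ModularGenus
import Fermat.Agent.S36.Genus.SS

set_option autoImplicit false
set_option linter.style.haveILetI false
set_option linter.unusedSectionVars false

noncomputable section

open AlgebraicCurve IntermediateField ModularCurve

namespace Fermat.Agent.S36G

open Fermat.Agent.RR Fermat.Agent.RRHur Fermat.Agent.RRRel Fermat.Agent.RedTr

/-! ### generalities on inclusions of intermediate fields -/

section Incl

variable {K L : Type*} [Field K] [Field L] [Algebra K L]

/-- a morphism of function fields is finite (any characteristic). -/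
theorem ig_finiteAlong {E F : Type*} [Field E] [Field F] [Algebra K E] [Algebra K F]
    (φ : E →ₐ[K] F) (x : E) [FiniteDimensional K⟮φ x⟯ F] : FiniteAlong K φ := by
  letI := algebraAlong φ
  obtain ⟨S, hS⟩ := Module.Finite.fg_top (R := K⟮φ x⟯) (M := F)
  have hle : K⟮φ x⟯ ≤ φ.fieldRange := by
    rw [IntermediateField.adjoin_le_iff, Set.singleton_subset_iff]
    exact ⟨x, rfl⟩
  show Module.Finite E F
  refine ⟨⟨S, ?_⟩⟩
  rw [eq_top_iff]
  rintro z -
  have hz : z ∈ Submodule.span K⟮φ x⟯ (S : Set F) := by
    rw [hS]
    trivial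
  induction hz using Submodule.span_induction with
  | mem w hw => exact Submodule.subset_span hw
  | zero => exact zero_mem _
  | add a b _ _ ha hb => exact add_mem ha hb
  | smul c w _ hw =>
    obtain ⟨y, hy⟩ := hle c.2
    have h1 : c • w = y • w := by
      rw [Algebra.smul_def, Algebra.smul_def]
      congr 1
      exact hy.symm
    rw [h1]
    exact Submodule.smul_mem _ _ hw

/-- a finite morphism is integral. -/
theorem ig_isIntegral_of_finiteAlong {E F : Type*} [Field E] [Field F] [Algebra K E]
    [Algebra K F] (φ : E →ₐ[K] F) (hfin : FiniteAlong K φ) : φ.toRingHom.IsIntegral := by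
  letI := algebraAlong φ
  haveI : Module.Finite E F := hfin
  intro z
  exact (Algebra.IsIntegral.of_finite E F).isIntegral z

/-- the degree along an inclusion of intermediate fields is the relative degree. -/
theorem ig_finrankAlong_inclusion {A B : IntermediateField K L} (h : A ≤ B) :
    finrankAlong K (IntermediateField.inclusion h) = IntermediateField.relfinrank A B := by
  rw [IntermediateField.relfinrank_eq_finrank_of_le h]
  letI := algebraAlong (IntermediateField.inclusion h)
  show Module.finrank ↥A ↥B = Module.finrank ↥A ↥(IntermediateField.extendScalars h)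
  let e : ↥B ≃ₗ[↥A] ↥(IntermediateField.extendScalars h) :=
    { toFun := fun x => ⟨x.1, x.2⟩
      invFun := fun x => ⟨x.1, x.2⟩
      map_add' := fun _ _ => rfl
      map_smul' := fun _ _ => rfl
      left_inv := fun _ => rfl
      right_inv := fun _ => rfl }
  exact e.finrank_eq

end Incl

/-! ### the Igusa component -/

section Igusa

set_option synthInstance.maxHeartbeats 400000
set_option maxHeartbeats 1000000

local notation "Qb" => AlgebraicClosure ℚ

attribute [local instance 10000] SubalgebraClass.toAlgebra HahnSeries.powerSeriesAlgebra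

open Fermat.Agent.GaussInt Fermat.Agent.GoodRed Fermat.Agent.BadRed

/-- the inclusion `k(Z) → Fk_m = k(Z)(θ j̄)`. -/
abbrev igIncl (k : Type*) [Field k] (M₀ : ℕ) :
    ↥(modularFunctionFieldFullC k M₀) →ₐ[k] ↥(igField k M₀) :=
  IntermediateField.inclusion (fullC_le_igField k M₀)

/-- **the bound `hM` of `gen_genus_le_modular` for the Igusa component**, `q ∉ {2, 3}`, LOCAL
form: the degree and the total ramification at the supersingular places are asked at
`k = ResidueField A` only. -/
theorem ig_hM_at (M₀ : ℕ) [NeZero M₀] {q : ℕ} (hq : q.Prime) (hqM : ¬ q ∣ M₀) (h2 : q ≠ 2)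
    (h3 : q ≠ 3) {A : ValuationSubring Qb} (hA : A.LiesOverPrime q)
    (hTot : ∀ P : Place (IsLocalRing.ResidueField A)
        ↥(modularFunctionFieldFullC (IsLocalRing.ResidueField A) M₀),
      IsSSPlace (IsLocalRing.ResidueField A) M₀ q P →
        ∀ Q Q' : Place (IsLocalRing.ResidueField A) ↥(igField (IsLocalRing.ResidueField A) M₀),
          (∀ x : ↥(modularFunctionFieldFullC (IsLocalRing.ResidueField A) M₀), 0 < P.ord x →
            0 < Q.ord (igIncl (IsLocalRing.ResidueField A) M₀ x)) →
          (∀ x : ↥(modularFunctionFieldFullC (IsLocalRing.ResidueField A) M₀), 0 < P.ord x →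
            0 < Q'.ord (igIncl (IsLocalRing.ResidueField A) M₀ x)) →
          Q = Q')
    (hDeg : IntermediateField.relfinrank
        (modularFunctionFieldFullC (IsLocalRing.ResidueField A) M₀)
        (igField (IsLocalRing.ResidueField A) M₀) = midDeg q)
    (hRR : IsRRField (IsLocalRing.ResidueField A) ↥(igField (IsLocalRing.ResidueField A) M₀))
    (hsep : Algebra.IsSeparable
      (IntermediateField.adjoin (IsLocalRing.ResidueField A)
        {igIncl (IsLocalRing.ResidueField A) M₀
          (Fermat.Agent.RRMod.jC (IsLocalRing.ResidueField A) M₀)})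
      ↥(igField (IsLocalRing.ResidueField A) M₀)) :
    2 + 2 * (midDeg q : ℤ) * ((genusFF (IsLocalRing.ResidueField A)
        ↥(modularFunctionFieldFullC (IsLocalRing.ResidueField A) M₀) : ℤ) - 1) +
      ((midDeg q : ℤ) - 1) *
        (Nat.card {P : Place (IsLocalRing.ResidueField A)
          ↥(modularFunctionFieldFullC (IsLocalRing.ResidueField A) M₀) //
            IsSSPlace (IsLocalRing.ResidueField A) M₀ q P} : ℤ) ≤
        2 * (genusFF (IsLocalRing.ResidueField A)
          ↥(igField (IsLocalRing.ResidueField A) M₀) : ℤ) := by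
  haveI := isAlgClosed_residue A
  haveI := infinite_residue A
  haveI : Fact q.Prime := ⟨hq⟩
  haveI : CharP (IsLocalRing.ResidueField A) q := Fermat.Agent.FrobTrace.charP_residueField A hA
  have hR := rangeAt M₀ hq hA hqM
  have hxb := modularRedModel_xbar M₀ hq hA hR
  have htr : Transcendental (IsLocalRing.ResidueField A)
      (igIncl (IsLocalRing.ResidueField A) M₀
        (Fermat.Agent.RRMod.jC (IsLocalRing.ResidueField A) M₀)) := by
    have h0 := Fermat.Agent.RRMod.transcendental_jC (IsLocalRing.ResidueField A) M₀
    intro halg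
    apply h0
    exact (isAlgebraic_algHom_iff (igIncl (IsLocalRing.ResidueField A) M₀)
      (igIncl (IsLocalRing.ResidueField A) M₀).injective).mp halg
  haveI hfd : FiniteDimensional
      (IntermediateField.adjoin (IsLocalRing.ResidueField A)
        {igIncl (IsLocalRing.ResidueField A) M₀
          (Fermat.Agent.RRMod.jC (IsLocalRing.ResidueField A) M₀)})
      ↥(igField (IsLocalRing.ResidueField A) M₀) :=
    fundIdK_finiteDimensional hRR htr
  have hφ : (igIncl (IsLocalRing.ResidueField A) M₀).toRingHom.IsIntegral :=
    ig_isIntegral_of_finiteAlong _ (ig_finiteAlong _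
      (Fermat.Agent.RRMod.jC (IsLocalRing.ResidueField A) M₀))
  haveI hfin := gen_finite_isSSPlace M₀ hq hA
  haveI : FiniteDimensional
      (IntermediateField.adjoin (IsLocalRing.ResidueField A)
        {igIncl (IsLocalRing.ResidueField A) M₀ (modularRedModel M₀ hq hA hR).xbar})
      ↥(igField (IsLocalRing.ResidueField A) M₀) := by
    rw [hxb]
    exact hfd
  haveI : Algebra.IsSeparable
      (IntermediateField.adjoin (IsLocalRing.ResidueField A)
        {igIncl (IsLocalRing.ResidueField A) M₀ (modularRedModel M₀ hq hA hR).xbar})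
      ↥(igField (IsLocalRing.ResidueField A) M₀) := by
    rw [hxb]
    exact hsep
  classical
  have hTfin : {P : Place (IsLocalRing.ResidueField A)
      ↥(modularFunctionFieldFullC (IsLocalRing.ResidueField A) M₀) |
        IsSSPlace (IsLocalRing.ResidueField A) M₀ q P}.Finite := Set.finite_coe_iff.mp hfin
  set T : Finset (Place (IsLocalRing.ResidueField A)
      ↥(modularFunctionFieldFullC (IsLocalRing.ResidueField A) M₀)) := hTfin.toFinset with hTdef
  have hTmem : ∀ P, P ∈ T ↔ IsSSPlace (IsLocalRing.ResidueField A) M₀ q P := by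
    intro P
    rw [hTdef, Set.Finite.mem_toFinset]
    rfl
  have hTcard : Nat.card {P : Place (IsLocalRing.ResidueField A)
      ↥(modularFunctionFieldFullC (IsLocalRing.ResidueField A) M₀) //
        IsSSPlace (IsLocalRing.ResidueField A) M₀ q P} = T.card := by
    rw [hTdef, ← Nat.card_eq_card_finite_toFinset hTfin]
    rfl
  have key := two_genus_ge_over_goodRed (modularRedModel M₀ hq hA hR) _
    (modularDegData M₀ hq hA hR hqM) (modularBranchData M₀ hq hA hR h2 h3)
    (Fermat.Agent.RRMod.isRRField_bar M₀)
    (Fermat.Agent.RRMod.isRRField_fullC' (IsLocalRing.ResidueField A) M₀)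
    (modular_fibreBound M₀ hq hA hR hqM h2 h3)
    (FibreBound.at_infty (modular_fibreBound_inv M₀ hq hA hR hqM h2 h3))
    (Fermat.Agent.Deuring.genusFF_le (modularValSetup A q M₀ hq hA hqM)
      (hasLattice_modularValSetup A q M₀ hq hA hqM))
    hRR (igIncl (IsLocalRing.ResidueField A) M₀) hφ T ?_
  · rw [ig_finrankAlong_inclusion, hDeg, ← hTcard] at key
    exact key
  · intro v hv w w' hw hw'
    rw [hTmem] at hv
    refine hTot v hv w w' ?_ ?_
    · intro x hx
      rw [← hw] at hx
      exact (ord_map_pos_iff _ hφ w x).mpr hx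
    · intro x hx
      rw [← hw'] at hx
      exact (ord_map_pos_iff _ hφ w' x).mpr hx

/-- **the bound `hM` of `gen_genus_le_modular` for the Igusa component**, `q ∉ {2, 3}`, from the
degree (IG2), the total ramification at the supersingular places (IG3), (RR) and the
separability of `Fk_m / k(j̄)`. -/
theorem ig_hM (M₀ : ℕ) [NeZero M₀] {q : ℕ} (hq : q.Prime) (hqM : ¬ q ∣ M₀) (h2 : q ≠ 2)
    (h3 : q ≠ 3) {A : ValuationSubring Qb} (hA : A.LiesOverPrime q)
    (hTot : IgTotRam M₀ q) (hDeg : IgDegree M₀ q)
    (hRR : IsRRField (IsLocalRing.ResidueField A) ↥(igField (IsLocalRing.ResidueField A) M₀))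
    (hsep : Algebra.IsSeparable
      (IntermediateField.adjoin (IsLocalRing.ResidueField A)
        {igIncl (IsLocalRing.ResidueField A) M₀
          (Fermat.Agent.RRMod.jC (IsLocalRing.ResidueField A) M₀)})
      ↥(igField (IsLocalRing.ResidueField A) M₀))
    (hno : ∀ P : Place (IsLocalRing.ResidueField A)
        ↥(modularFunctionFieldFullC (IsLocalRing.ResidueField A) M₀),
      IsSSPlace (IsLocalRing.ResidueField A) M₀ q P →
        ∀ u : ↥(modularFunctionFieldFullC (IsLocalRing.ResidueField A) M₀),
          (u : LaurentSeries (IsLocalRing.ResidueField A)) =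
            ssFun (IsLocalRing.ResidueField A) q → P.ord u = 12) :
    2 + 2 * (midDeg q : ℤ) * ((genusFF (IsLocalRing.ResidueField A)
        ↥(modularFunctionFieldFullC (IsLocalRing.ResidueField A) M₀) : ℤ) - 1) +
      ((midDeg q : ℤ) - 1) *
        (Nat.card {P : Place (IsLocalRing.ResidueField A)
          ↥(modularFunctionFieldFullC (IsLocalRing.ResidueField A) M₀) //
            IsSSPlace (IsLocalRing.ResidueField A) M₀ q P} : ℤ) ≤
        2 * (genusFF (IsLocalRing.ResidueField A)
          ↥(igField (IsLocalRing.ResidueField A) M₀) : ℤ) := by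
  haveI := isAlgClosed_residue A
  haveI : Fact q.Prime := ⟨hq⟩
  haveI : CharP (IsLocalRing.ResidueField A) q := Fermat.Agent.FrobTrace.charP_residueField A hA
  exact ig_hM_at M₀ hq hqM h2 h3 hA
    (fun P hP Q Q' hQ hQ' =>
      hTot hq hqM (IsLocalRing.ResidueField A) P hP (hno P hP) Q Q' hQ hQ')
    (hDeg hq hqM (IsLocalRing.ResidueField A)) hRR hsep

end Igusa

end Fermat.Agent.S36G
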