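import Mathlib
import Fermat.Agent.S36.Igusa.Defs
import Fermat.Agent.S36.Genus.SS
import Fermat.Agent.R38.P.Eps

/-!
# Cluster G (S36), seat GENUS: `ord_P ssFun = 12` at every supersingular place  (helper98)

`q ≥ 5` prime, `q ∤ M₀`, `M₀` without elliptic points (`ν₂(M₀) = ν₃(M₀) = 0`), `A | q`,
`k` its residue field, `Fk₀ = modularFunctionFieldFullC k M₀`.

* `gen_hno` : for every supersingular place `P` of `Fk₀` and every `u ∈ Fk₀` with expansion
  `ssFun k q`: `ord_P u = 12`.  This is EXACTLY the hypothesis `hno` of `IgTotRam`.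
* `gen_hno_card` : `12 s = (q - 1) ψ(M₀)`-free corollary is in `SSPos.lean` (`≤`).

Proof: wiring of `R38.r38_kpEps_eq_twelve` (helper27, helper65: equality case of the count of the
supersingular points + ramification of `j̄` in characteristic `q`).
-/

set_option autoImplicit false
set_option linter.unusedSectionVars false
set_option linter.style.haveILetI false
set_option synthInstance.maxHeartbeats 400000
set_option maxHeartbeats 1000000

noncomputable section

open ModularCurve AlgebraicCurve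

namespace Fermat.Agent.S36G

/- build-time recipe (helper70): the two instances found by typeclass search, tried first. -/
attribute [local instance 10000] SubalgebraClass.toAlgebra HahnSeries.powerSeriesAlgebra


open Fermat.Agent.AtkinLehner Fermat.Agent.BadRed Fermat.Agent.EKp Fermat.Agent.R38

local notation "Qb" => AlgebraicClosure ℚ

/-- `ALData` form. -/
theorem gen_hno_al (D : ALData) [NeZero D.Q] [NeZero D.R] [NeZero (D.Q * D.R)]
    (A : ValuationSubring Qb) (hq : D.Q.Prime) (hA : A.LiesOverPrime D.Q) (hqR : ¬ D.Q ∣ D.R)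
    (h5 : 5 ≤ D.Q) (hν2 : nuTwo D.R = 0) (hν3 : nuThree D.R = 0)
    (P : Place (IsLocalRing.ResidueField A)
      ↥(modularFunctionFieldFullC (IsLocalRing.ResidueField A) D.R))
    (hP : IsSSPlace (IsLocalRing.ResidueField A) D.R D.Q P)
    (u : ↥(modularFunctionFieldFullC (IsLocalRing.ResidueField A) D.R))
    (hu : (u : LaurentSeries (IsLocalRing.ResidueField A)) =
      ssFun (IsLocalRing.ResidueField A) D.Q) :
    P.ord u = 12 := by
  haveI : Fact D.Q.Prime := ⟨hq⟩
  haveI : CharP (IsLocalRing.ResidueField A) D.Q :=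
    Fermat.Agent.FrobTrace.charP_residueField A hA
  haveI : IsAlgClosed (IsLocalRing.ResidueField A) := Fermat.Agent.GaussInt.isAlgClosed_residue A
  haveI : PerfectRing (IsLocalRing.ResidueField A) D.Q := inferInstance
  have hred := fw_coe_red_uF D A hq hA (kpS D A hq hA hqR)
    (isGaussSetup_gaussSetupBad D hq hqR A hA)
  have hu' : u = (kpS D A hq hA hqR).red (fwU D) := Subtype.ext (hu.trans hred.symm)
  have hP' : 0 < P.ord ((kpS D A hq hA hqR).red (fwU D)) :=
    (gen_isSSPlace_iff D.R D.Q _ hred P).mp hP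
  have h12 := r38_kpEps_eq_twelve D A hq hA hqR h5 hν2 hν3 ⟨P, hP'⟩
  have hc := kpEps_cast D A hq hA hqR ⟨P, hP'⟩
  rw [hu', ← hc, h12]
  rfl

/-- **HNO**: `ord_P ssFun = 12` at every supersingular place (`q ≥ 5`, no elliptic points). -/
theorem gen_hno (M₀ : ℕ) [NeZero M₀] {q : ℕ} (hq : q.Prime) (h5 : 5 ≤ q) (hqM : ¬ q ∣ M₀)
    (hν2 : nuTwo M₀ = 0) (hν3 : nuThree M₀ = 0)
    {A : ValuationSubring Qb} (hA : A.LiesOverPrime q)
    (P : Place (IsLocalRing.ResidueField A)
      ↥(modularFunctionFieldFullC (IsLocalRing.ResidueField A) M₀))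
    (hP : IsSSPlace (IsLocalRing.ResidueField A) M₀ q P)
    (u : ↥(modularFunctionFieldFullC (IsLocalRing.ResidueField A) M₀))
    (hu : (u : LaurentSeries (IsLocalRing.ResidueField A)) =
      ssFun (IsLocalRing.ResidueField A) q) :
    P.ord u = 12 := by
  have hcop : Nat.Coprime q M₀ := (Nat.Prime.coprime_iff_not_dvd hq).mpr hqM
  obtain ⟨D, hDQ, hDR⟩ := ALData.exists_of_coprime hq.pos
    (Nat.pos_of_ne_zero (NeZero.ne M₀)) hcop
  subst hDQ
  subst hDR
  haveI : NeZero D.Q := ⟨hq.ne_zero⟩
  haveI : NeZero (D.Q * D.R) := ⟨Nat.mul_ne_zero hq.ne_zero (NeZero.ne D.R)⟩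
  exact gen_hno_al D A hq hA hqM h5 hν2 hν3 P hP u hu

end Fermat.Agent.S36G
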