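/-
G wave (S36), seat GENUS, wiring of the Igusa bound (helper63): the bound `hM` of
`gen_genus_le_modular` for ALL primes `q ∤ M₀`, from the single input `hno`
(`ord_P ssFun = 12` at the supersingular places, needed for `5 ≤ q` only):

* `q ≥ 5`: `ig_hM_at` with (IG3) `igTotRam`, (IG2) `igDegree_at`, (RR) `igRR`,
  separability `isSeparable_igField'`, and a supersingular place (`gen_nonempty_isSSPlace`);
* `q = 2, 3`: `gen_hM_small` with the Kummer relation `igKummer`.
-/
import Mathlib
import Fermat.Agent.S36.Genus.IgGenus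
import Fermat.Agent.S36.Genus.SSPos
import Fermat.Agent.S36.Genus.Small
import Fermat.Agent.S36.Igusa.RR
import Fermat.Agent.S36.Igusa.DegOf
import Fermat.Agent.S36.Igusa.Kummer

set_option autoImplicit false
set_option linter.style.haveILetI false
set_option linter.unusedSectionVars false

noncomputable section

open AlgebraicCurve IntermediateField ModularCurve

namespace Fermat.Agent.S36G

open Fermat.Agent.RR Fermat.Agent.GaussInt Fermat.Agent.BadRed

section Wire

set_option synthInstance.maxHeartbeats 400000
set_option maxHeartbeats 1000000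

local notation "Qb" => AlgebraicClosure ℚ

/-- **the bound `hM` for the Igusa component, all `q`**, from `hno` (asked for `5 ≤ q` only). -/
theorem ig_hM_of_hno (M₀ : ℕ) [NeZero M₀] {q : ℕ} (hq : q.Prime) (hqM : ¬ q ∣ M₀)
    (hν2 : nuTwo M₀ = 0) (hν3 : nuThree M₀ = 0)
    {A : ValuationSubring Qb} (hA : A.LiesOverPrime q)
    (hno : 5 ≤ q → ∀ P : Place (IsLocalRing.ResidueField A)
        ↥(modularFunctionFieldFullC (IsLocalRing.ResidueField A) M₀),
      IsSSPlace (IsLocalRing.ResidueField A) M₀ q P →
        ∀ u : ↥(modularFunctionFieldFullC (IsLocalRing.ResidueField A) M₀),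
          (u : LaurentSeries (IsLocalRing.ResidueField A)) =
            ssFun (IsLocalRing.ResidueField A) q → P.ord u = 12) :
    2 + 2 * (midDeg q : ℤ) * ((genusFF (IsLocalRing.ResidueField A)
        ↥(modularFunctionFieldFullC (IsLocalRing.ResidueField A) M₀) : ℤ) - 1) +
      ((midDeg q : ℤ) - 1) *
        (Nat.card {P : Place (IsLocalRing.ResidueField A)
          ↥(modularFunctionFieldFullC (IsLocalRing.ResidueField A) M₀) //
            IsSSPlace (IsLocalRing.ResidueField A) M₀ q P} : ℤ) ≤
        2 * (genusFF (IsLocalRing.ResidueField A)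
          ↥(igField (IsLocalRing.ResidueField A) M₀) : ℤ) := by
  haveI := isAlgClosed_residue A
  haveI : Fact q.Prime := ⟨hq⟩
  haveI : CharP (IsLocalRing.ResidueField A) q := Fermat.Agent.FrobTrace.charP_residueField A hA
  by_cases h5 : 5 ≤ q
  · have h2 : q ≠ 2 := by omega
    have h3 : q ≠ 3 := by omega
    have hRR := igRR M₀ q hq hqM (IsLocalRing.ResidueField A)
    obtain ⟨⟨P₀, hP₀⟩⟩ := gen_nonempty_isSSPlace M₀ hq hqM hν2 hν3
      (fun h => absurd h h2) (fun h => absurd h h3) hA
    refine ig_hM_at M₀ hq hqM h2 h3 hA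
      (fun P hP Q Q' hQ hQ' =>
        igTotRam M₀ q hq hqM (IsLocalRing.ResidueField A) P hP (hno h5 P hP) Q Q' hQ hQ')
      (igDegree_core M₀ q hq hqM (IsLocalRing.ResidueField A) hRR P₀ hP₀ (hno h5 P₀ hP₀))
      hRR (isSeparable_igField' (IsLocalRing.ResidueField A) M₀ q)
  · have h23 : q = 2 ∨ q = 3 := by
      have := hq.two_le
      have h4 : q ≠ 4 := by
        rintro rfl
        exact absurd hq (by decide)
      omega
    exact gen_hM_small (IsLocalRing.ResidueField A) M₀ h23
      (igKummer M₀ q hq (IsLocalRing.ResidueField A)) _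

end Wire

end Fermat.Agent.S36G
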