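import Mathlib
import Fermat.Agent.S36.G.Types
import Fermat.Agent.S36.Genus.Arith
import Fermat.Agent.S36.Genus.SS

/-!
# Cluster G (S36), seat GENUS: the genus inequality of the modular graph  (helper98)

The field `genus_le` of `BadRedG.GraphSeed` for the modular graph `K_{|Vert|, s}` of
`X₀(q² M₀)` at `A | q`:

  `g(F) + #Vtx ≤ ∑_c g(Fk_c) + #Nod + 1`,     `Vtx = Vtx Mid SS`, `Nod = SS × Vrt Mid`,

from
* the genus formula at the levels `M₀`, `q M₀`, `q² M₀` (`gen_genusFF_sq`), good reduction at the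
  level `M₀` (`gen_genusFF_residue`) and the count of supersingular places (`gen_ss_card_ge`);
* `hM` : the relative Hurwitz lower bound for the Igusa components
  (`RRRel.two_genus_ge_of_totally_ramified` with `E = Fk₀`, `F = Fk_m`, `T = SS`);
* `hP` : `q + 1 ≤ |Mid| + 2 g(H_P)` (`HP.genus_odd`, `HP.genus_two`).

* `gen_arith_core`     : the pure arithmetic;
* `gen_sum_vtx`        : `∑_{c : Vtx} = g₀ + g₀ + ∑_m + ∑_P`;
* `gen_genus_le`       : the inequality, numeric hypotheses;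
* `gen_genus_le_modular` : the inequality for `F = F_{q² M₀}`.
-/

set_option autoImplicit false
set_option linter.unusedSectionVars false
set_option linter.style.haveILetI false
set_option synthInstance.maxHeartbeats 400000
set_option maxHeartbeats 1000000

noncomputable section

open ModularCurve AlgebraicCurve

namespace Fermat.Agent.S36G

/-- the pure arithmetic of the genus inequality (everything in `ℤ`). -/
theorem gen_arith_core {q G2 G1 G0 s μ e Sm SP : ℤ} (hq : 0 ≤ q) (hμ : 0 ≤ μ)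
    (h1 : G2 + q + (q + 1) * G0 = (q + 1) * (G1 + 1))
    (h2 : G1 + 1 ≤ 2 * G0 + s)
    (h3 : μ * e = q - 1)
    (h4 : μ * (2 + 2 * e * (G0 - 1) + (e - 1) * s) ≤ 2 * Sm)
    (h5 : s * (q + 1) ≤ s * μ + 2 * SP) :
    G2 + (μ + 2 + s) ≤ (G0 + G0 + Sm + SP) + s * (μ + 2) + 1 := by
  have h2' : (q + 1) * (G1 + 1) ≤ (q + 1) * (2 * G0 + s) :=
    mul_le_mul_of_nonneg_left h2 (by linarith)
  have e1 : μ * (2 + 2 * e * (G0 - 1) + (e - 1) * s) =
      2 * μ + 2 * (μ * e) * (G0 - 1) + (μ * e) * s - μ * s := by ring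
  rw [e1, h3] at h4
  nlinarith [h1, h2', h4, h5]

section Sum

variable {Mid SS : Type} (k : Type) [Field k] (Fk0 : Type) [Field Fk0] [Algebra k Fk0]
  (FkM : Mid → Type) [∀ m, Field (FkM m)] [∀ m, Algebra k (FkM m)]
  (FkP : SS → Type) [∀ P, Field (FkP P)] [∀ P, Algebra k (FkP P)]

/-- the sum of the genera over the vertices of the modular graph. -/
theorem gen_sum_vtx [Fintype Mid] [Fintype SS] [iV : Fintype (Vtx Mid SS)] :
    ∑ c : Vtx Mid SS, genusFF k (FkOf Fk0 FkM FkP c) =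
      genusFF k Fk0 + genusFF k Fk0 + ∑ m, genusFF k (FkM m) + ∑ P, genusFF k (FkP P) := by
  classical
  obtain rfl : iV = instFintypeVtx := Subsingleton.elim _ _
  rw [← Equiv.sum_comp (vtxEquiv Mid SS).symm, Fintype.sum_sum_type,
    ← Equiv.sum_comp (vrtEquiv Mid).symm, Fintype.sum_option, Fintype.sum_option]
  simp only [vtxEquiv, vrtEquiv, Equiv.coe_fn_symm_mk]
  rw [add_assoc (genusFF k _) (genusFF k _)]
  rfl

theorem gen_card_vtx [Fintype Mid] [Fintype SS] [iV : Fintype (Vtx Mid SS)] :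
    Fintype.card (Vtx Mid SS) = Fintype.card Mid + 2 + Fintype.card SS := by
  obtain rfl : iV = instFintypeVtx := Subsingleton.elim _ _
  exact card_vtx

theorem gen_card_nod [Fintype Mid] [Fintype SS] [iN : Fintype (Nod Mid SS)] :
    Fintype.card (Nod Mid SS) = Fintype.card SS * (Fintype.card Mid + 2) := by
  obtain rfl : iN = instFintypeProd SS (Vrt Mid) := Subsingleton.elim _ _
  exact card_nod

/-- **the genus inequality, numeric hypotheses**: `G2, G1` are the genera at the levels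
`q² M₀`, `q M₀`, and `g₀ = g(Fk₀)` is the genus at the level `M₀`. -/
theorem gen_genus_le [Fintype Mid] [Fintype SS] [Fintype (Vtx Mid SS)] [Fintype (Nod Mid SS)]
    {q G2 G1 e : ℕ}
    (h1 : G2 + q + (q + 1) * genusFF k Fk0 = (q + 1) * (G1 + 1))
    (h2 : G1 + 1 ≤ 2 * genusFF k Fk0 + Fintype.card SS)
    (h3 : Fintype.card Mid * e = q - 1) (hq : 1 ≤ q)
    (hM : ∀ m, 2 + 2 * (e : ℤ) * ((genusFF k Fk0 : ℤ) - 1) +
      ((e : ℤ) - 1) * (Fintype.card SS : ℤ) ≤ 2 * (genusFF k (FkM m) : ℤ))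
    (hP : ∀ P, q + 1 ≤ Fintype.card Mid + 2 * genusFF k (FkP P)) :
    G2 + Fintype.card (Vtx Mid SS) ≤
      (∑ c : Vtx Mid SS, genusFF k (FkOf Fk0 FkM FkP c)) + Fintype.card (Nod Mid SS) + 1 := by
  classical
  rw [gen_sum_vtx, gen_card_vtx, gen_card_nod]
  have h4 : (Fintype.card Mid : ℤ) * (2 + 2 * (e : ℤ) * ((genusFF k Fk0 : ℤ) - 1) +
      ((e : ℤ) - 1) * (Fintype.card SS : ℤ)) ≤ 2 * ((∑ m, genusFF k (FkM m) : ℕ) : ℤ) := by
    have := Finset.sum_le_sum (s := (Finset.univ : Finset Mid)) fun m _ => hM m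
    rw [Finset.sum_const, Finset.card_univ, nsmul_eq_mul, ← Finset.mul_sum] at this
    push_cast
    exact this
  have h5 : (Fintype.card SS : ℤ) * ((q : ℤ) + 1) ≤
      (Fintype.card SS : ℤ) * (Fintype.card Mid : ℤ) + 2 * ((∑ P, genusFF k (FkP P) : ℕ) : ℤ) := by
    have := Finset.sum_le_sum (s := (Finset.univ : Finset SS)) fun P _ => hP P
    rw [Finset.sum_const, Finset.card_univ, smul_eq_mul, Finset.sum_add_distrib, Finset.sum_const,
      Finset.card_univ, smul_eq_mul, ← Finset.mul_sum] at this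
    exact_mod_cast this
  have h3' : (Fintype.card Mid : ℤ) * (e : ℤ) = (q : ℤ) - 1 := by
    have : ((Fintype.card Mid * e : ℕ) : ℤ) = ((q - 1 : ℕ) : ℤ) := by rw [h3]
    rw [Nat.cast_sub hq] at this
    exact_mod_cast this
  have h1' : (G2 : ℤ) + q + ((q : ℤ) + 1) * (genusFF k Fk0 : ℤ) = ((q : ℤ) + 1) * ((G1 : ℤ) + 1) := by
    exact_mod_cast h1
  have h2' : (G1 : ℤ) + 1 ≤ 2 * (genusFF k Fk0 : ℤ) + (Fintype.card SS : ℤ) := by
    exact_mod_cast h2
  have key := gen_arith_core (Int.natCast_nonneg q) (Int.natCast_nonneg (Fintype.card Mid))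
    h1' h2' h3' h4 h5
  have : ((G2 + (Fintype.card Mid + 2 + Fintype.card SS) : ℕ) : ℤ) ≤
      ((genusFF k Fk0 + genusFF k Fk0 + ∑ m, genusFF k (FkM m) + ∑ P, genusFF k (FkP P) +
        Fintype.card SS * (Fintype.card Mid + 2) + 1 : ℕ) : ℤ) := by
    push_cast
    push_cast at key
    linarith
  exact_mod_cast this

end Sum

local notation "Qb" => AlgebraicClosure ℚ

/-- **GENUS**: the genus inequality of the modular graph of `X₀(q² M₀)` at `A | q`
(`M₀` without elliptic points; `q = 2`: `3 ∣ M₀`; `q = 3`: `2 ∣ M₀`), from the lower bounds for the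
genera of the Igusa components (`hM`) and of the horizontal components (`hP`). -/
theorem gen_genus_le_modular (M₀ N₂ : ℕ) [NeZero M₀] [NeZero N₂] {q : ℕ} (hq : q.Prime)
    (hqM : ¬ q ∣ M₀) (hN₂ : N₂ = q * (q * M₀)) (hν2 : nuTwo M₀ = 0) (hν3 : nuThree M₀ = 0)
    (h2 : q = 2 → 3 ∣ M₀) (h3 : q = 3 → 2 ∣ M₀)
    {A : ValuationSubring Qb} (hA : A.LiesOverPrime q)
    {Mid SS : Type} [Fintype Mid] [Fintype SS] [Fintype (Vtx Mid SS)] [Fintype (Nod Mid SS)]
    (FkM : Mid → Type) [∀ m, Field (FkM m)] [∀ m, Algebra (IsLocalRing.ResidueField A) (FkM m)]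
    (FkP : SS → Type) [∀ P, Field (FkP P)] [∀ P, Algebra (IsLocalRing.ResidueField A) (FkP P)]
    {e : ℕ} (hMid : Fintype.card Mid * e = q - 1)
    (hSS : Nat.card {P : Place (IsLocalRing.ResidueField A)
        ↥(modularFunctionFieldFullC (IsLocalRing.ResidueField A) M₀) //
          IsSSPlace (IsLocalRing.ResidueField A) M₀ q P} ≤ Fintype.card SS)
    (hM : ∀ m, 2 + 2 * (e : ℤ) * ((genusFF (IsLocalRing.ResidueField A)
        ↥(modularFunctionFieldFullC (IsLocalRing.ResidueField A) M₀) : ℤ) - 1) +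
      ((e : ℤ) - 1) * (Fintype.card SS : ℤ) ≤
        2 * (genusFF (IsLocalRing.ResidueField A) (FkM m) : ℤ))
    (hP : ∀ P, q + 1 ≤ Fintype.card Mid + 2 * genusFF (IsLocalRing.ResidueField A) (FkP P)) :
    genusFF Qb ↥(modularFunctionFieldBar N₂) + Fintype.card (Vtx Mid SS) ≤
      (∑ c : Vtx Mid SS, genusFF (IsLocalRing.ResidueField A)
        (FkOf ↥(modularFunctionFieldFullC (IsLocalRing.ResidueField A) M₀) FkM FkP c)) +
        Fintype.card (Nod Mid SS) + 1 := by
  haveI : NeZero (q * M₀) := ⟨Nat.mul_ne_zero hq.ne_zero (NeZero.ne M₀)⟩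
  have hres := gen_genusFF_residue M₀ hq hqM h2 h3 hA
  have hsq := gen_genusFF_sq (N₁ := q * M₀) (N₂ := N₂) hq hqM rfl hN₂ hν2 hν3
  have hss := gen_ss_card_ge M₀ (q * M₀) hq hqM rfl h2 h3 hA
  rw [hres] at hsq
  exact gen_genus_le (IsLocalRing.ResidueField A) _ FkM FkP hsq (hss.trans (by omega)) hMid
    hq.one_le hM hP

end Fermat.Agent.S36G
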