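import Mathlib
import Fermat.Agent.S36.Genus.Main
import Fermat.Agent.S36.Genus.Small
import Fermat.Agent.S36.Genus.Hno
import Fermat.Agent.S36.Genus.IgWire

/-!
# Cluster G (S36), seat GENUS: the genus inequality of the modular graph, FINAL  (helper98)

`gen_genus_le_final`: the field `genus_le` of `BadRedG.GraphSeed` for the modular graph of
`X₀(q² M₀)` at `A | q`, UNCONDITIONAL (`q ∤ M₀` prime, `M₀` without elliptic points; `q = 2`:
`3 ∣ M₀`; `q = 3`: `2 ∣ M₀`), with

* vertices `Vtx Mid SS`, `|Mid| = midCard q`, `|SS| = ` the number of supersingular places of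
  `X₀(M₀)` mod `q`;
* residue fields `Fk₀ = k(Z)` (`∞`, `0`), `Fk_m = igField k M₀` (middle vertices) and
  `FkP P = k(H_P)` (ANY field carrying an `HPCurve` structure over `k`).

Inputs (all on main): the genus formula (S24), good reduction at `M₀`, the count of the
supersingular places (cluster T), `ord_P ssFun = 12` (`gen_hno`), the relative Riemann–Hurwitz
bound for the Igusa component (`ig_hM_of_hno`, helper63, with helper24's `igTotRam`,
`igDegree_core` and helper1's `igRR`), the genus of `H_P` (helper48).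

* `gen_hM_final`       : the bound `hM`, all `q`;
* `gen_genus_le_final` : the genus inequality;
* `gen_genus_le_ss`    : the same with `SS :=` the type of the supersingular places.
-/

set_option autoImplicit false
set_option linter.unusedSectionVars false
set_option linter.style.haveILetI false
set_option synthInstance.maxHeartbeats 400000
set_option maxHeartbeats 1000000

noncomputable section

open ModularCurve AlgebraicCurve

namespace Fermat.Agent.S36G

/- build-time recipe (helper70): the two instances found by typeclass search, tried first. -/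
attribute [local instance 10000] SubalgebraClass.toAlgebra HahnSeries.powerSeriesAlgebra


local notation "Qb" => AlgebraicClosure ℚ

/-- **the bound `hM` for the Igusa component, all `q`, unconditional**. -/
theorem gen_hM_final (M₀ : ℕ) [NeZero M₀] {q : ℕ} (hq : q.Prime) (hqM : ¬ q ∣ M₀)
    (hν2 : nuTwo M₀ = 0) (hν3 : nuThree M₀ = 0)
    {A : ValuationSubring Qb} (hA : A.LiesOverPrime q) :
    2 + 2 * (midDeg q : ℤ) * ((genusFF (IsLocalRing.ResidueField A)
        ↥(modularFunctionFieldFullC (IsLocalRing.ResidueField A) M₀) : ℤ) - 1) +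
      ((midDeg q : ℤ) - 1) *
        (Nat.card {P : Place (IsLocalRing.ResidueField A)
          ↥(modularFunctionFieldFullC (IsLocalRing.ResidueField A) M₀) //
            IsSSPlace (IsLocalRing.ResidueField A) M₀ q P} : ℤ) ≤
        2 * (genusFF (IsLocalRing.ResidueField A)
          ↥(igField (IsLocalRing.ResidueField A) M₀) : ℤ) :=
  ig_hM_of_hno M₀ hq hqM hν2 hν3 hA
    (fun h5 P hP u hu => gen_hno M₀ hq h5 hqM hν2 hν3 hA P hP u hu)

/-- **GENUS, final form**: the genus inequality of the modular graph of `X₀(q² M₀)` at `A | q`. -/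
theorem gen_genus_le_final (M₀ N₂ : ℕ) [NeZero M₀] [NeZero N₂] {q : ℕ} (hq : q.Prime)
    (hqM : ¬ q ∣ M₀) (hN₂ : N₂ = q * (q * M₀)) (hν2 : nuTwo M₀ = 0) (hν3 : nuThree M₀ = 0)
    (h2 : q = 2 → 3 ∣ M₀) (h3 : q = 3 → 2 ∣ M₀)
    {A : ValuationSubring Qb} (hA : A.LiesOverPrime q)
    {Mid SS : Type} [Fintype Mid] [Fintype SS] [Fintype (Vtx Mid SS)] [Fintype (Nod Mid SS)]
    (hMid : Fintype.card Mid = midCard q)
    (hSS : Fintype.card SS = Nat.card {P : Place (IsLocalRing.ResidueField A)
        ↥(modularFunctionFieldFullC (IsLocalRing.ResidueField A) M₀) //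
          IsSSPlace (IsLocalRing.ResidueField A) M₀ q P})
    (FkP : SS → Type) [∀ P, Field (FkP P)] [∀ P, Algebra (IsLocalRing.ResidueField A) (FkP P)]
    (H : ∀ P, Fermat.Agent.HP.HPCurve (IsLocalRing.ResidueField A) (FkP P) q) :
    genusFF Qb ↥(modularFunctionFieldBar N₂) + Fintype.card (Vtx Mid SS) ≤
      (∑ c : Vtx Mid SS, genusFF (IsLocalRing.ResidueField A)
        (FkOf ↥(modularFunctionFieldFullC (IsLocalRing.ResidueField A) M₀)
          (fun _ : Mid => ↥(igField (IsLocalRing.ResidueField A) M₀)) FkP c)) +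
        Fintype.card (Nod Mid SS) + 1 := by
  haveI : Fact q.Prime := ⟨hq⟩
  haveI : CharP (IsLocalRing.ResidueField A) q := Fermat.Agent.FrobTrace.charP_residueField A hA
  haveI : IsAlgClosed (IsLocalRing.ResidueField A) := Fermat.Agent.GaussInt.isAlgClosed_residue A
  refine gen_genus_le_modular M₀ N₂ hq hqM hN₂ hν2 hν3 h2 h3 hA
    (fun _ : Mid => ↥(igField (IsLocalRing.ResidueField A) M₀)) FkP (e := midDeg q)
    (by rw [hMid]; exact gen_midCard_mul_midDeg hq) hSS.ge ?_ ?_
  · intro _
    rw [hSS]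
    exact gen_hM_final M₀ hq hqM hν2 hν3 hA
  · intro P
    exact gen_hP_le hq hMid (H P)

/-- the type of the supersingular places of `X₀(M₀)` mod `q` at `A`. -/
abbrev SSPl (M₀ q : ℕ) (A : ValuationSubring Qb) : Type :=
  {P : Place (IsLocalRing.ResidueField A)
    ↥(modularFunctionFieldFullC (IsLocalRing.ResidueField A) M₀) //
      IsSSPlace (IsLocalRing.ResidueField A) M₀ q P}

/-- **GENUS, final form, `SS :=` the supersingular places** (any `Fintype` instance). -/
theorem gen_genus_le_ss (M₀ N₂ : ℕ) [NeZero M₀] [NeZero N₂] {q : ℕ} (hq : q.Prime)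
    (hqM : ¬ q ∣ M₀) (hN₂ : N₂ = q * (q * M₀)) (hν2 : nuTwo M₀ = 0) (hν3 : nuThree M₀ = 0)
    (h2 : q = 2 → 3 ∣ M₀) (h3 : q = 3 → 2 ∣ M₀)
    {A : ValuationSubring Qb} (hA : A.LiesOverPrime q)
    {Mid : Type} [Fintype Mid] [Fintype (SSPl M₀ q A)] [Fintype (Vtx Mid (SSPl M₀ q A))]
    [Fintype (Nod Mid (SSPl M₀ q A))]
    (hMid : Fintype.card Mid = midCard q)
    (FkP : SSPl M₀ q A → Type) [∀ P, Field (FkP P)]
    [∀ P, Algebra (IsLocalRing.ResidueField A) (FkP P)]
    (H : ∀ P, Fermat.Agent.HP.HPCurve (IsLocalRing.ResidueField A) (FkP P) q) :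
    genusFF Qb ↥(modularFunctionFieldBar N₂) + Fintype.card (Vtx Mid (SSPl M₀ q A)) ≤
      (∑ c : Vtx Mid (SSPl M₀ q A), genusFF (IsLocalRing.ResidueField A)
        (FkOf ↥(modularFunctionFieldFullC (IsLocalRing.ResidueField A) M₀)
          (fun _ : Mid => ↥(igField (IsLocalRing.ResidueField A) M₀)) FkP c)) +
        Fintype.card (Nod Mid (SSPl M₀ q A)) + 1 :=
  gen_genus_le_final M₀ N₂ hq hqM hN₂ hν2 hν3 h2 h3 hA hMid
    (Nat.card_eq_fintype_card).symm FkP H

end Fermat.Agent.S36G
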