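import Mathlib
import Fermat.Agent.S36.Genus.Final

/-!
# Cluster G (S36), seat MG-GENUS (helper91): `hgenus` of the modular family

helper98's `gen_genus_le_final` (`S36/Genus/Final.lean`) in the shape in which the modular seed
consumes it (`ModMatchInput.seed`, `hgenus`): level `M = M₀ * q * q` (as in `WPOut`), the
supersingular vertices `SS` given by a bijection onto the supersingular places.

* `gen_card_ss_of_bijective` : `#SS = ` the number of supersingular places, from a bijection;
* `gen_genus_le_family`      : `g(F_M) + #Vtx ≤ ∑_c g(Fk_c) + #Nod + 1` for `M = M₀ * q * q`,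
  `Fk_m = igField k M₀`, `FkP P` carrying an `HPCurve` (e.g. `(O P).H`, `O P : WPOut ..`).
-/

set_option autoImplicit false
set_option linter.unusedSectionVars false
set_option linter.style.haveILetI false
set_option synthInstance.maxHeartbeats 400000
set_option maxHeartbeats 1000000

noncomputable section

open ModularCurve AlgebraicCurve

namespace Fermat.Agent.S36G

local notation "Qb" => AlgebraicClosure ℚ

/-- the number of the supersingular vertices, from a bijection onto the supersingular places. -/
theorem gen_card_ss_of_bijective (M₀ : ℕ) [NeZero M₀] (q : ℕ) (A : ValuationSubring Qb)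
    {SS : Type} [Fintype SS] (f : SS → SSPl M₀ q A) (hf : Function.Bijective f) :
    Fintype.card SS = Nat.card (SSPl M₀ q A) := by
  rw [← Nat.card_eq_fintype_card]
  exact Nat.card_eq_of_bijective f hf

/-- **MG-GENUS**: the genus inequality `hgenus` of the modular family at the level
`M = M₀ * q * q`. -/
theorem gen_genus_le_family (M₀ M : ℕ) [NeZero M₀] [NeZero M] {q : ℕ} (hq : q.Prime)
    (hqM : ¬ q ∣ M₀) (hM : M = M₀ * q * q) (hν2 : nuTwo M₀ = 0) (hν3 : nuThree M₀ = 0)
    (h2 : q = 2 → 3 ∣ M₀) (h3 : q = 3 → 2 ∣ M₀)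
    {A : ValuationSubring Qb} (hA : A.LiesOverPrime q)
    {Mid SS : Type} [Fintype Mid] [Fintype SS] [Fintype (Vtx Mid SS)] [Fintype (Nod Mid SS)]
    (hMid : Fintype.card Mid = midCard q)
    (f : SS → SSPl M₀ q A) (hf : Function.Bijective f)
    (FkP : SS → Type) [∀ P, Field (FkP P)] [∀ P, Algebra (IsLocalRing.ResidueField A) (FkP P)]
    (H : ∀ P, Fermat.Agent.HP.HPCurve (IsLocalRing.ResidueField A) (FkP P) q) :
    genusFF Qb ↥(modularFunctionFieldBar M) + Fintype.card (Vtx Mid SS) ≤
      (∑ c : Vtx Mid SS, genusFF (IsLocalRing.ResidueField A)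
        (FkOf ↥(modularFunctionFieldFullC (IsLocalRing.ResidueField A) M₀)
          (fun _ : Mid => ↥(igField (IsLocalRing.ResidueField A) M₀)) FkP c)) +
        Fintype.card (Nod Mid SS) + 1 :=
  gen_genus_le_final M₀ M hq hqM (by rw [hM]; ring) hν2 hν3 h2 h3 hA hMid
    (gen_card_ss_of_bijective M₀ q A f hf) FkP H

end Fermat.Agent.S36G
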